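import Fermat.Agent.S59.G4.H532.TraceFnCore
import Fermat.Agent.Lib.Cheb.Chebotarev

/-!
# Row S59, layer G4, piece TRFN (helper532): `traceFn : G4.TraceFnStatement`

Unconditional form of `H532.traceFn_of`, with the landed qualitative Chebotarev theorem
`Fermat.Agent.Lib.Cheb.chebotarev`.
-/

set_option autoImplicit false

namespace Fermat.Agent.S59.G4.H532

/-- **TRFN.** The traces of the representations at a strict family of points glue to a
`T`-valued function. -/
theorem traceFn : Fermat.Agent.S59.G4.TraceFnStatement :=
  traceFn_of Fermat.Agent.Lib.Cheb.chebotarev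

end Fermat.Agent.S59.G4.H532
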