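import Fermat.Agent.S59.G4.Spec
import Fermat.Agent.S31.H22.TraceCont
import Fermat.Agent.S31.H22.PowTr

/-!
# Row S59, layer G4, piece TRFN (helper532): the trace function with values in `T`

`traceFn_of : Lib.Cheb.Spec.ChebotarevStatement → G4.TraceFnStatement`.

For `σ ∈ GQ` and `m`, all the representations at the points of the family factor modulo the
`m`-th power of the maximal ideal through a common finite level `E` (`exists_common_level`);
by Chebotarev `σ` agrees on `E` with a Frobenius element at a prime `ℓ ∉ S`, `ℓ ∤ N`, so that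
`t := π (T_ℓ)` satisfies `χ_P t ≡ tr ρ_P σ` modulo `𝔪_P ^ m` at every point (`exists_approx`).
Strictness makes a suitable sequence of such `t` Cauchy in `T`; its limit has the exact traces
because the coefficient rings of the points are Hausdorff.
-/

set_option autoImplicit false

open Polynomial IsLocalRing

namespace Fermat.Agent.S59.G4.H532

open Fermat.Agent.S31 Fermat.Agent.S59.G4

/-- A common finite level modulo `𝔪 ^ m` for the traces of a finite family of
representations. -/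
theorem exists_common_level {p : ℕ} {T : Type} [CommRing T] (F : List (RepPoint p T)) (m : ℕ) :
    ∃ E : IntermediateField ℚ Qb, FiniteDimensional ℚ E ∧
      ∀ P ∈ F, ∀ g g' : GQ, (∀ x ∈ E, g x = g' x) →
        P.ρ.trace g - P.ρ.trace g' ∈ maximalIdeal P.pt.O ^ m := by
  induction F with
  | nil =>
    refine ⟨⊥, ?_, ?_⟩
    · infer_instance
    · intro P hP
      simp at hP
  | cons P F ih =>
    obtain ⟨E, hE, h⟩ := ih
    obtain ⟨L, hL, hP⟩ := H22.trace_congr_of_agree P.ρ m
    refine ⟨L ⊔ E, ?_, ?_⟩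
    · exact IntermediateField.finiteDimensional_sup L E
    · intro Q hQ g g' hgg'
      rcases List.mem_cons.mp hQ with rfl | hQ
      · exact hP g g' fun x hx => hgg' x ((le_sup_left : L ≤ L ⊔ E) hx)
      · exact h Q hQ g g' fun x hx => hgg' x ((le_sup_right : E ≤ L ⊔ E) hx)

/-- Approximation of the traces at all points modulo `𝔪 ^ m` by the image of a Hecke
operator. -/
theorem exists_approx (hcheb : Fermat.Agent.Lib.Cheb.Spec.ChebotarevStatement)
    {p : ℕ} {N : ℕ} [NeZero N] (S : Finset ℕ)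
    {T : Type} [CommRing T] (π : CuspForm.heckeAlgebra N 2 (↑S : Set ℕ) →+* T)
    (F : List (RepPoint p T)) (hF : ∀ P ∈ F, FrobCond P.ρ (P.pt.χ.comp π)) (σ : GQ) (m : ℕ) :
    ∃ t : T, ∀ P ∈ F, P.pt.χ t - P.ρ.trace σ ∈ maximalIdeal P.pt.O ^ m := by
  obtain ⟨E, hE, h⟩ := exists_common_level F m
  obtain ⟨ℓ, A, τ, hℓ, hℓS, hA, hτ, -, hτσ⟩ := hcheb E hE σ (S ∪ N.primeFactors)
  have hℓS' : ℓ ∉ (↑S : Set ℕ) := fun h' => hℓS (Finset.mem_union_left _ h')
  have hℓN : ¬ ℓ ∣ N := fun h' =>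
    hℓS (Finset.mem_union_right _ (Nat.mem_primeFactors.mpr ⟨hℓ, h', NeZero.ne N⟩))
  refine ⟨π (CuspForm.heckeAlgebra.T hℓ hℓN hℓS'), fun P hP => ?_⟩
  have hcp := hF P hP ℓ hℓ hℓN hℓS' A hA τ hτ
  have htr : P.ρ.trace τ = P.pt.χ (π (CuspForm.heckeAlgebra.T hℓ hℓN hℓS')) := by
    have h1 := H22.trace_pow_of_charpoly P.ρ.finrank_eq (P.ρ.ρ τ) _ _ hcp 1
    rw [pow_one] at h1
    exact h1
  rw [← htr]
  exact h P hP τ σ hτσ

/-- **TRFN**, from Chebotarev. -/
theorem traceFn_of (hcheb : Fermat.Agent.Lib.Cheb.Spec.ChebotarevStatement) :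
    TraceFnStatement := by
  intro p _ N _ S T _ _ _ _ π F hstrict hloc hF
  choose n' hn' using hstrict
  let M : ℕ → ℕ := fun n => n + ∑ k ∈ Finset.range (n + 1), n' k
  have hM1 : ∀ n, n ≤ M n := fun n => Nat.le_add_right _ _
  have hM2 : ∀ n, n' n ≤ M n := fun n =>
    (Finset.single_le_sum (f := n') (fun _ _ => Nat.zero_le _)
      (Finset.mem_range.mpr (Nat.lt_succ_self n))).trans (Nat.le_add_left _ _)
  have hMmono : Monotone M := by
    intro a b hab
    exact Nat.add_le_add hab (Finset.sum_le_sum_of_subset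
      (Finset.range_mono (Nat.succ_le_succ hab)))
  have key : ∀ σ : GQ, ∃ t : T, ∀ P ∈ F, P.pt.χ t = P.ρ.trace σ := by
    intro σ
    choose t ht using fun n => exists_approx hcheb S π F hF σ (M n)
    have hC : ∀ {m n}, m ≤ n →
        t m ≡ t n [SMOD (maximalIdeal T ^ m • ⊤ : Submodule T T)] := by
      intro m n hmn
      rw [SModEq.sub_mem, smul_eq_mul, Ideal.mul_top]
      apply hn' m
      intro Q hQ
      obtain ⟨P, hP, rfl⟩ := List.mem_map.mp hQ
      have h1 : P.pt.χ (t m) - P.ρ.trace σ ∈ maximalIdeal P.pt.O ^ n' m :=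
        Ideal.pow_le_pow_right (hM2 m) (ht m P hP)
      have h2 : P.pt.χ (t n) - P.ρ.trace σ ∈ maximalIdeal P.pt.O ^ n' m :=
        Ideal.pow_le_pow_right ((hM2 m).trans (hMmono hmn)) (ht n P hP)
      have h3 : P.pt.χ (t m - t n) =
          (P.pt.χ (t m) - P.ρ.trace σ) - (P.pt.χ (t n) - P.ρ.trace σ) := by
        rw [map_sub]; ring
      rw [h3]
      exact Ideal.sub_mem _ h1 h2
    obtain ⟨L, hL⟩ := IsPrecomplete.prec (inferInstance : IsPrecomplete (maximalIdeal T) T) hC
    refine ⟨L, fun P hP => ?_⟩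
    have hlocP : IsLocalHom P.pt.χ := hloc P hP
    rw [← sub_eq_zero]
    apply IsHausdorff.haus (inferInstance : IsHausdorff (maximalIdeal P.pt.O) P.pt.O)
    intro n
    rw [SModEq.zero, smul_eq_mul, Ideal.mul_top]
    have h1 : t n - L ∈ maximalIdeal T ^ n := by
      have := hL n
      rwa [SModEq.sub_mem, smul_eq_mul, Ideal.mul_top] at this
    have h2 : P.pt.χ (t n - L) ∈ maximalIdeal P.pt.O ^ n := by
      have hle : (maximalIdeal T ^ n).map P.pt.χ ≤ maximalIdeal P.pt.O ^ n := by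
        rw [Ideal.map_pow]
        exact Ideal.pow_right_mono (((local_hom_TFAE P.pt.χ).out 0 2).mp hlocP) n
      exact hle (Ideal.mem_map_of_mem _ h1)
    have h3 : P.pt.χ (t n) - P.ρ.trace σ ∈ maximalIdeal P.pt.O ^ n :=
      Ideal.pow_le_pow_right (hM1 n) (ht n P hP)
    have h4 : P.pt.χ L - P.ρ.trace σ =
        (P.pt.χ (t n) - P.ρ.trace σ) - P.pt.χ (t n - L) := by
      rw [map_sub]; ring
    rw [h4]
    exact Ideal.sub_mem _ h3 h2
  choose τ hτ using key
  exact ⟨τ, fun P hP σ => hτ σ P hP⟩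

end Fermat.Agent.S59.G4.H532
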